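import Mathlib
import Fermat.Prelude.Def_GaloisRep_DeformationRingData
import Fermat.Prelude.Def_GaloisRep_DeformationCondition

set_option autoImplicit false
set_option linter.style.haveILetI false

open IsLocalRing

namespace Fermat.Agent.S53_helper84

variable (𝒪 : Type) [CommRing 𝒪] [IsLocalRing 𝒪]

/-- The `𝒪`-algebra structure on `k[ε]` used (through a `letI`) inside
`GaloisRep.TangentFinite`. It is propositionally, not definitionally, equal to the global
instance `TrivSqZeroExt.algebra'`. -/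
@[reducible] noncomputable def dualNumberAlgebra : Algebra 𝒪 (DualNumber (ResidueField 𝒪)) :=
  ((algebraMap (ResidueField 𝒪) (DualNumber (ResidueField 𝒪))).comp
    (algebraMap 𝒪 (ResidueField 𝒪))).toAlgebra

theorem dualNumberAlgebra_eq :
    dualNumberAlgebra 𝒪 = (inferInstance : Algebra 𝒪 (DualNumber (ResidueField 𝒪))) := by
  apply Algebra.algebra_ext
  intro r
  rfl

theorem algebraMap_dualNumber_apply (a : 𝒪) :
    algebraMap 𝒪 (DualNumber (ResidueField 𝒪)) a = TrivSqZeroExt.inl (residue 𝒪 a) := rfl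

theorem isArtinianRing_dualNumber (k : Type) [Field k] : IsArtinianRing (DualNumber k) := by
  haveI : Module.Finite k (DualNumber k) := inferInstanceAs (Module.Finite k (k × k))
  exact IsArtinianRing.of_finite k (DualNumber k)

theorem residue_dualNumber_eq (k : Type) [Field k] (x : DualNumber k) :
    residue (DualNumber k) x = residue (DualNumber k) (TrivSqZeroExt.inl x.fst) := by
  rw [← sub_eq_zero, ← map_sub, residue_eq_zero_iff, mem_maximalIdeal, mem_nonunits_iff,
    TrivSqZeroExt.isUnit_iff_isUnit_fst]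
  simp

/-- `k[ε]` with its natural `𝒪`-algebra structure is an Artinian test algebra. -/
theorem isArtinianTestAlgebra_dualNumber :
    GaloisRep.IsArtinianTestAlgebra 𝒪 (DualNumber (ResidueField 𝒪)) := by
  refine ⟨⟨fun a ha => ?_⟩, fun y => ?_, isArtinianRing_dualNumber _⟩
  · rw [algebraMap_dualNumber_apply, TrivSqZeroExt.isUnit_iff_isUnit_fst,
      TrivSqZeroExt.fst_inl] at ha
    exact (isUnit_map_iff (residue 𝒪) a).mp ha
  · obtain ⟨x, rfl⟩ := residue_surjective y
    obtain ⟨a, ha⟩ := residue_surjective (R := 𝒪) x.fst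
    refine ⟨a, ?_⟩
    rw [Function.comp_apply, algebraMap_dualNumber_apply, ha]
    exact (residue_dualNumber_eq _ x).symm

instance isLocalHom_algebraMap_dualNumber :
    IsLocalHom (algebraMap 𝒪 (DualNumber (ResidueField 𝒪))) :=
  (isArtinianTestAlgebra_dualNumber 𝒪).isLocalHom

/-- The two ring homs `k → ResidueField k[ε]` occurring in the prelude agree. -/
theorem residueFieldMap_eq :
    ResidueField.map (algebraMap 𝒪 (DualNumber (ResidueField 𝒪))) =
      (residue (DualNumber (ResidueField 𝒪))).comp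
        (algebraMap (ResidueField 𝒪) (DualNumber (ResidueField 𝒪))) := by
  ext x
  obtain ⟨a, rfl⟩ := residue_surjective x
  rfl

variable (ρbar : ResidualGaloisRep (ResidueField 𝒪))
  (𝒟 : ∀ ⦃A : Type⦄ [CommRing A] [IsLocalRing A] [Algebra 𝒪 A], GaloisRepAdic A → Prop)

/-- General form: deformations of type `𝒟` to `k[ε]` (with an arbitrary `𝒪`-algebra
structure `inst`) whose residual representation is `ρbar` base-changed along `ψ`. -/
def TangentLiftGen (inst : Algebra 𝒪 (DualNumber (ResidueField 𝒪)))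
    (ψ : ResidueField 𝒪 →+* ResidueField (DualNumber (ResidueField 𝒪))) : Type 1 :=
  {ρ : GaloisRepAdic (DualNumber (ResidueField 𝒪)) //
    @𝒟 (DualNumber (ResidueField 𝒪)) _ _ inst ρ ∧ ρ.residual.IsEquiv (ρbar.baseChangeAlong ψ)}

/-- Equivalence of tangent lifts (general form). -/
def tangentSetoidGen (inst : Algebra 𝒪 (DualNumber (ResidueField 𝒪)))
    (ψ : ResidueField 𝒪 →+* ResidueField (DualNumber (ResidueField 𝒪))) :
    Setoid (TangentLiftGen 𝒪 ρbar 𝒟 inst ψ) :=
  ⟨fun ρ ρ' => ρ.1.IsEquiv ρ'.1, ⟨fun ρ => ⟨GaloisRepAdic.Equiv.refl ρ.1⟩,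
    fun ⟨e⟩ => ⟨e.symm⟩, fun ⟨e⟩ ⟨e'⟩ => ⟨e.trans e'⟩⟩⟩

theorem tangentFinite_iff_gen :
    GaloisRep.TangentFinite 𝒪 ρbar 𝒟 ↔ Finite (Quotient (tangentSetoidGen 𝒪 ρbar 𝒟
      (dualNumberAlgebra 𝒪) ((residue (DualNumber (ResidueField 𝒪))).comp
        (algebraMap (ResidueField 𝒪) (DualNumber (ResidueField 𝒪)))))) :=
  Iff.rfl

/-- Deformations of type `𝒟` of `ρbar` to `k[ε]`, with the natural `𝒪`-algebra structure on
`k[ε]` and phrased with `baseChangeAlong` of `ResidueField.map`, i.e. in the same shape as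
`DeformationRingData.universal`. -/
def TangentLift : Type 1 :=
  {ρ : GaloisRepAdic (DualNumber (ResidueField 𝒪)) // 𝒟 ρ ∧ ρ.residual.IsEquiv
    (ρbar.baseChangeAlong (ResidueField.map (algebraMap 𝒪 (DualNumber (ResidueField 𝒪)))))}

/-- Equivalence of tangent lifts. -/
def tangentSetoid : Setoid (TangentLift 𝒪 ρbar 𝒟) :=
  ⟨fun ρ ρ' => ρ.1.IsEquiv ρ'.1, ⟨fun ρ => ⟨GaloisRepAdic.Equiv.refl ρ.1⟩,
    fun ⟨e⟩ => ⟨e.symm⟩, fun ⟨e⟩ ⟨e'⟩ => ⟨e.trans e'⟩⟩⟩

theorem tangentSetoid_eq_gen :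
    Finite (Quotient (tangentSetoid 𝒪 ρbar 𝒟)) ↔ Finite (Quotient (tangentSetoidGen 𝒪 ρbar 𝒟
      inferInstance (ResidueField.map (algebraMap 𝒪 (DualNumber (ResidueField 𝒪)))))) :=
  Iff.rfl

theorem tangentFinite_iff :
    GaloisRep.TangentFinite 𝒪 ρbar 𝒟 ↔ Finite (Quotient (tangentSetoid 𝒪 ρbar 𝒟)) := by
  rw [tangentFinite_iff_gen, tangentSetoid_eq_gen, residueFieldMap_eq, dualNumberAlgebra_eq]

/-- The form used downstream: an "injective up to equivalence" family of tangent lifts is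
finite. -/
theorem finite_of_tangentFinite (h : GaloisRep.TangentFinite 𝒪 ρbar 𝒟) {X : Type*}
    (f : X → TangentLift 𝒪 ρbar 𝒟)
    (hf : ∀ x y, (f x).1.IsEquiv (f y).1 → x = y) : Finite X := by
  haveI := (tangentFinite_iff 𝒪 ρbar 𝒟).mp h
  refine Finite.of_injective (fun x => (Quotient.mk (tangentSetoid 𝒪 ρbar 𝒟) (f x))) ?_
  intro x y hxy
  exact hf x y (Quotient.exact hxy)

end Fermat.Agent.S53_helper84
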