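import Mathlib

set_option autoImplicit false
set_option linter.style.haveILetI false
set_option linter.unusedSectionVars false

open IsLocalRing

namespace Fermat.Agent.S53_helper84

section

variable {𝒪 : Type} [CommRing 𝒪] [IsLocalRing 𝒪]
  {B : Type} [CommRing B] [IsLocalRing B] [Algebra 𝒪 B]

/-- The projection `B → k` obtained by inverting `k ≃ k_B`. -/
noncomputable def projK (hloc : IsLocalHom (algebraMap 𝒪 B))
    (hres : Function.Surjective (residue B ∘ algebraMap 𝒪 B)) : B →+* ResidueField 𝒪 :=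
  haveI := hloc
  ((RingEquiv.ofBijective (ResidueField.map (algebraMap 𝒪 B))
    ⟨(ResidueField.map (algebraMap 𝒪 B)).injective, fun y => by
      obtain ⟨a, ha⟩ := hres y
      exact ⟨residue 𝒪 a, ha⟩⟩).symm : ResidueField B →+* ResidueField 𝒪).comp (residue B)

theorem projK_algebraMap (hloc : IsLocalHom (algebraMap 𝒪 B))
    (hres : Function.Surjective (residue B ∘ algebraMap 𝒪 B)) (a : 𝒪) :
    projK hloc hres (algebraMap 𝒪 B a) = residue 𝒪 a := by
  haveI := hloc
  unfold projK
  rw [RingHom.comp_apply, RingHom.coe_coe, RingEquiv.symm_apply_eq]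
  rfl

theorem projK_eq_zero_iff (hloc : IsLocalHom (algebraMap 𝒪 B))
    (hres : Function.Surjective (residue B ∘ algebraMap 𝒪 B)) (b : B) :
    projK hloc hres b = 0 ↔ b ∈ maximalIdeal B := by
  unfold projK
  rw [RingHom.comp_apply, RingHom.coe_coe, map_eq_zero_iff _ (RingEquiv.injective _),
    residue_eq_zero_iff]

/-- The section `k → B` when `𝔪_𝒪` dies in `B`. -/
noncomputable def sectK (hm : ∀ a ∈ maximalIdeal 𝒪, algebraMap 𝒪 B a = 0) :
    ResidueField 𝒪 →+* B :=
  Ideal.Quotient.lift (maximalIdeal 𝒪) (algebraMap 𝒪 B) hm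

theorem sectK_residue (hm : ∀ a ∈ maximalIdeal 𝒪, algebraMap 𝒪 B a = 0) (a : 𝒪) :
    sectK hm (residue 𝒪 a) = algebraMap 𝒪 B a := rfl

theorem projK_sectK (hloc : IsLocalHom (algebraMap 𝒪 B))
    (hres : Function.Surjective (residue B ∘ algebraMap 𝒪 B))
    (hm : ∀ a ∈ maximalIdeal 𝒪, algebraMap 𝒪 B a = 0) (c : ResidueField 𝒪) :
    projK hloc hres (sectK hm c) = c := by
  obtain ⟨a, rfl⟩ := residue_surjective c
  rw [sectK_residue, projK_algebraMap]

theorem sub_sectK_projK_mem (hloc : IsLocalHom (algebraMap 𝒪 B))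
    (hres : Function.Surjective (residue B ∘ algebraMap 𝒪 B))
    (hm : ∀ a ∈ maximalIdeal 𝒪, algebraMap 𝒪 B a = 0) (b : B) :
    b - sectK hm (projK hloc hres b) ∈ maximalIdeal B := by
  rw [← projK_eq_zero_iff hloc hres, map_sub, projK_sectK, sub_self]

/-- The algebra hom `B → k[ε]` attached to a `k`-linear functional on `B`
(`k` acting through `sectK`). -/
noncomputable def tangentHom (hloc : IsLocalHom (algebraMap 𝒪 B))
    (hres : Function.Surjective (residue B ∘ algebraMap 𝒪 B))
    (hm : ∀ a ∈ maximalIdeal 𝒪, algebraMap 𝒪 B a = 0)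
    (hsq : maximalIdeal B ^ 2 = ⊥)
    (l : B →+ ResidueField 𝒪)
    (hl : ∀ (c : ResidueField 𝒪) (x : B), l (sectK hm c * x) = c * l x) :
    B →ₐ[𝒪] DualNumber (ResidueField 𝒪) where
  toFun b := TrivSqZeroExt.inl (projK hloc hres b) +
    TrivSqZeroExt.inr (l (b - sectK hm (projK hloc hres b)))
  map_one' := by
    simp only [map_one, sub_self, map_zero, TrivSqZeroExt.inr_zero, add_zero,
      TrivSqZeroExt.inl_one]
  map_zero' := by
    simp only [map_zero, sub_self, TrivSqZeroExt.inr_zero, add_zero, TrivSqZeroExt.inl_zero]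
  map_add' x y := by
    have : x + y - sectK hm (projK hloc hres (x + y)) =
        (x - sectK hm (projK hloc hres x)) + (y - sectK hm (projK hloc hres y)) := by
      rw [map_add, map_add]; ring
    rw [this, map_add, map_add, TrivSqZeroExt.inl_add, TrivSqZeroExt.inr_add]
    abel
  map_mul' x y := by
    set x₀ := sectK hm (projK hloc hres x) with hx₀
    set y₀ := sectK hm (projK hloc hres y) with hy₀
    have hxy : (x - x₀) * (y - y₀) = 0 := by
      have h1 : (x - x₀) * (y - y₀) ∈ maximalIdeal B ^ 2 := by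
        rw [pow_two]
        exact Ideal.mul_mem_mul (sub_sectK_projK_mem hloc hres hm x)
          (sub_sectK_projK_mem hloc hres hm y)
      rwa [hsq, Ideal.mem_bot] at h1
    have hkey : x * y - sectK hm (projK hloc hres (x * y)) =
        x₀ * (y - y₀) + y₀ * (x - x₀) := by
      rw [map_mul, map_mul, ← hx₀, ← hy₀]
      linear_combination hxy
    rw [hkey, map_add, hx₀, hl, hy₀, hl, map_mul]
    ext
    · simp
    · simp [mul_comm]
  commutes' a := by
    rw [projK_algebraMap, ← sectK_residue hm, sub_self, map_zero, TrivSqZeroExt.inr_zero,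
      add_zero]
    rfl

theorem tangentHom_apply_of_mem (hloc : IsLocalHom (algebraMap 𝒪 B))
    (hres : Function.Surjective (residue B ∘ algebraMap 𝒪 B))
    (hm : ∀ a ∈ maximalIdeal 𝒪, algebraMap 𝒪 B a = 0)
    (hsq : maximalIdeal B ^ 2 = ⊥)
    (l : B →+ ResidueField 𝒪)
    (hl : ∀ (c : ResidueField 𝒪) (x : B), l (sectK hm c * x) = c * l x)
    {b : B} (hb : b ∈ maximalIdeal B) :
    tangentHom hloc hres hm hsq l hl b = TrivSqZeroExt.inr (l b) := by
  have h0 : projK hloc hres b = 0 := (projK_eq_zero_iff hloc hres b).mpr hb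
  show TrivSqZeroExt.inl (projK hloc hres b) +
    TrivSqZeroExt.inr (l (b - sectK hm (projK hloc hres b))) = _
  rw [h0, map_zero, sub_zero, TrivSqZeroExt.inl_zero, zero_add]

/-- The `𝒪`-algebra homs `B → k[ε]` separate the points of a first-order test algebra `B`. -/
theorem exists_algHom_dualNumber_ne_zero (hloc : IsLocalHom (algebraMap 𝒪 B))
    (hres : Function.Surjective (residue B ∘ algebraMap 𝒪 B))
    (hm : ∀ a ∈ maximalIdeal 𝒪, algebraMap 𝒪 B a = 0)
    (hsq : maximalIdeal B ^ 2 = ⊥) {b : B} (hb : b ≠ 0) :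
    ∃ φ : B →ₐ[𝒪] DualNumber (ResidueField 𝒪), φ b ≠ 0 := by
  by_cases hbm : b ∈ maximalIdeal B
  · letI : Algebra (ResidueField 𝒪) B := (sectK hm).toAlgebra
    obtain ⟨f, hf⟩ : ∃ f : Module.Dual (ResidueField 𝒪) B, f b ≠ 0 := by
      by_contra h
      refine hb ((Module.forall_dual_apply_eq_zero_iff (ResidueField 𝒪) b).mp (fun f => ?_))
      by_contra hf
      exact h ⟨f, hf⟩
    refine ⟨tangentHom hloc hres hm hsq f.toAddMonoidHom (fun c x => ?_), ?_⟩
    · have : sectK hm c * x = c • x := (Algebra.smul_def c x).symm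
      rw [this]
      exact f.map_smul c x
    · rw [tangentHom_apply_of_mem hloc hres hm hsq _ _ hbm]
      intro h
      exact hf (TrivSqZeroExt.inr_injective h)
  · refine ⟨tangentHom hloc hres hm hsq 0 (fun c x => by simp), ?_⟩
    have hunit : IsUnit b := by
      by_contra h
      exact hbm ((mem_maximalIdeal b).mpr h)
    exact (hunit.map _).ne_zero

/-- Counting bound for first-order test algebras. -/
theorem card_le_of_card_algHom_dualNumber [Finite (ResidueField 𝒪)] [Finite B]
    (hloc : IsLocalHom (algebraMap 𝒪 B))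
    (hres : Function.Surjective (residue B ∘ algebraMap 𝒪 B))
    (hsq : maximalIdeal B ^ 2 = ⊥)
    (hm : ∀ a ∈ maximalIdeal 𝒪, algebraMap 𝒪 B a = 0) :
    Nat.card B ≤ Nat.card (ResidueField 𝒪) ^
      (2 * Nat.card (B →ₐ[𝒪] DualNumber (ResidueField 𝒪))) := by
  haveI : Finite (DualNumber (ResidueField 𝒪)) :=
    inferInstanceAs (Finite (ResidueField 𝒪 × ResidueField 𝒪))
  haveI : Finite (B →ₐ[𝒪] DualNumber (ResidueField 𝒪)) :=
    Finite.of_injective (fun φ => (φ : B → DualNumber (ResidueField 𝒪))) DFunLike.coe_injective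
  have hinj : Function.Injective
      (fun (b : B) (φ : B →ₐ[𝒪] DualNumber (ResidueField 𝒪)) => φ b) := by
    intro x y hxy
    by_contra hne
    obtain ⟨φ, hφ⟩ := exists_algHom_dualNumber_ne_zero hloc hres hm hsq (sub_ne_zero.mpr hne)
    apply hφ
    rw [map_sub, sub_eq_zero]
    exact congrFun hxy φ
  calc Nat.card B
      ≤ Nat.card ((B →ₐ[𝒪] DualNumber (ResidueField 𝒪)) → DualNumber (ResidueField 𝒪)) :=
        Nat.card_le_card_of_injective _ hinj
    _ = Nat.card (DualNumber (ResidueField 𝒪)) ^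
          Nat.card (B →ₐ[𝒪] DualNumber (ResidueField 𝒪)) := Nat.card_fun
    _ = (Nat.card (ResidueField 𝒪) ^ 2) ^
          Nat.card (B →ₐ[𝒪] DualNumber (ResidueField 𝒪)) := by
        congr 1
        show Nat.card (ResidueField 𝒪 × ResidueField 𝒪) = _
        rw [Nat.card_prod, pow_two]
    _ = _ := by rw [← pow_mul]

end

end Fermat.Agent.S53_helper84
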