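import Mathlib
import Fermat.Prelude.Def_GaloisRep_DeformationCondition

set_option autoImplicit false
set_option linter.style.haveILetI false
set_option linter.unusedSectionVars false

open IsLocalRing

namespace Fermat.Agent.S53_helper84

section FibreProduct

variable {𝒪 : Type*} [CommRing 𝒪] {Λ : Type*} [CommRing Λ] [Algebra 𝒪 Λ] (I J : Ideal Λ)

/-- `Λ/(I ⊓ J) → Λ/I`. -/
def fpA : Λ ⧸ (I ⊓ J) →ₐ[𝒪] Λ ⧸ I := Ideal.Quotient.factorₐ 𝒪 inf_le_left

/-- `Λ/(I ⊓ J) → Λ/J`. -/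
def fpB : Λ ⧸ (I ⊓ J) →ₐ[𝒪] Λ ⧸ J := Ideal.Quotient.factorₐ 𝒪 inf_le_right

/-- `Λ/I → Λ/(I ⊔ J)`. -/
def fpF : Λ ⧸ I →ₐ[𝒪] Λ ⧸ (I ⊔ J) := Ideal.Quotient.factorₐ 𝒪 le_sup_left

/-- `Λ/J → Λ/(I ⊔ J)`. -/
def fpG : Λ ⧸ J →ₐ[𝒪] Λ ⧸ (I ⊔ J) := Ideal.Quotient.factorₐ 𝒪 le_sup_right

@[simp] theorem fpA_mk (x : Λ) : fpA (𝒪 := 𝒪) I J (Ideal.Quotient.mk _ x) = Ideal.Quotient.mk _ x :=
  rfl

@[simp] theorem fpB_mk (x : Λ) : fpB (𝒪 := 𝒪) I J (Ideal.Quotient.mk _ x) = Ideal.Quotient.mk _ x :=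
  rfl

@[simp] theorem fpF_mk (x : Λ) : fpF (𝒪 := 𝒪) I J (Ideal.Quotient.mk _ x) = Ideal.Quotient.mk _ x :=
  rfl

@[simp] theorem fpG_mk (x : Λ) : fpG (𝒪 := 𝒪) I J (Ideal.Quotient.mk _ x) = Ideal.Quotient.mk _ x :=
  rfl

theorem fp_comp_eq : (fpF (𝒪 := 𝒪) I J).comp (fpA I J) = (fpG I J).comp (fpB I J) := by
  apply AlgHom.ext
  intro x
  obtain ⟨x, rfl⟩ := Ideal.Quotient.mk_surjective x
  rfl

theorem fp_injective :
    Function.Injective (fun x : Λ ⧸ (I ⊓ J) => (fpA (𝒪 := 𝒪) I J x, fpB (𝒪 := 𝒪) I J x)) := by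
  intro x y hxy
  obtain ⟨x, rfl⟩ := Ideal.Quotient.mk_surjective x
  obtain ⟨y, rfl⟩ := Ideal.Quotient.mk_surjective y
  simp only [Prod.mk.injEq, fpA_mk, fpB_mk, Ideal.Quotient.eq] at hxy
  rw [Ideal.Quotient.eq]
  exact ⟨hxy.1, hxy.2⟩

theorem fp_glue (a : Λ ⧸ I) (b : Λ ⧸ J) (h : fpF (𝒪 := 𝒪) I J a = fpG (𝒪 := 𝒪) I J b) :
    ∃ x : Λ ⧸ (I ⊓ J), fpA (𝒪 := 𝒪) I J x = a ∧ fpB (𝒪 := 𝒪) I J x = b := by
  obtain ⟨a, rfl⟩ := Ideal.Quotient.mk_surjective a
  obtain ⟨b, rfl⟩ := Ideal.Quotient.mk_surjective b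
  rw [fpF_mk, fpG_mk, Ideal.Quotient.eq, Submodule.mem_sup] at h
  obtain ⟨i, hi, j, hj, hij⟩ := h
  refine ⟨Ideal.Quotient.mk _ (a - i), ?_, ?_⟩
  · rw [fpA_mk, Ideal.Quotient.eq]
    simpa using I.neg_mem hi
  · rw [fpB_mk, Ideal.Quotient.eq]
    have : a - i - b = j := by linear_combination (-1 : Λ) * hij
    rw [this]
    exact hj

end FibreProduct

section TestAlgebra

variable {𝒪 : Type} [CommRing 𝒪] [IsLocalRing 𝒪]

/-- The residue field of a test algebra is finite if that of `𝒪` is. -/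
theorem finite_residueField_of_isArtinianTestAlgebra [Finite (ResidueField 𝒪)]
    {B : Type} [CommRing B] [IsLocalRing B] [Algebra 𝒪 B]
    (hB : GaloisRep.IsArtinianTestAlgebra 𝒪 B) : Finite (ResidueField B) := by
  haveI := hB.isLocalHom
  refine Finite.of_surjective (ResidueField.map (algebraMap 𝒪 B)) ?_
  intro y
  obtain ⟨a, ha⟩ := hB.residue_surjective y
  exact ⟨residue 𝒪 a, ha⟩

/-- A test algebra over `𝒪` with finite residue field is a finite ring. -/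
theorem finite_of_isArtinianTestAlgebra [Finite (ResidueField 𝒪)]
    {B : Type} [CommRing B] [IsLocalRing B] [Algebra 𝒪 B]
    (hB : GaloisRep.IsArtinianTestAlgebra 𝒪 B) : Finite B := by
  haveI := hB.isArtinian
  haveI := finite_residueField_of_isArtinianTestAlgebra hB
  obtain ⟨n, hn⟩ := IsLocalRing.exists_maximalIdeal_pow_le_of_isArtinianRing_quotient
    (⊥ : Ideal B) (R := B) |>.imp fun n hn => hn
  haveI : Finite (B ⧸ (⊥ : Ideal B)) := IsLocalRing.finite_quotient_iff.mpr ⟨n, hn⟩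
  exact Finite.of_equiv _ (RingEquiv.quotientBot B).toEquiv

/-- The maximal ideal of a test algebra is nilpotent. -/
theorem exists_maximalIdeal_pow_eq_bot
    {B : Type} [CommRing B] [IsLocalRing B] [Algebra 𝒪 B]
    (hB : GaloisRep.IsArtinianTestAlgebra 𝒪 B) : ∃ n : ℕ, maximalIdeal B ^ n = ⊥ := by
  haveI := hB.isArtinian
  obtain ⟨n, hn⟩ := IsLocalRing.exists_maximalIdeal_pow_le_of_isArtinianRing_quotient
    (⊥ : Ideal B) (R := B)
  exact ⟨n, le_bot_iff.mp hn⟩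

/-- A finite local `𝒪`-algebra with local structure map and `𝒪 → k_B` onto is a test
algebra. -/
theorem isArtinianTestAlgebra_of_finite
    {B : Type} [CommRing B] [IsLocalRing B] [Algebra 𝒪 B] [Finite B]
    (h1 : IsLocalHom (algebraMap 𝒪 B))
    (h2 : Function.Surjective (IsLocalRing.residue B ∘ algebraMap 𝒪 B)) :
    GaloisRep.IsArtinianTestAlgebra 𝒪 B :=
  ⟨h1, h2, inferInstance⟩

/-- Quotients of test algebras by proper ideals are test algebras. -/
theorem isArtinianTestAlgebra_quotient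
    {B : Type} [CommRing B] [IsLocalRing B] [Algebra 𝒪 B]
    (hB : GaloisRep.IsArtinianTestAlgebra 𝒪 B) (J : Ideal B) [IsLocalRing (B ⧸ J)] :
    GaloisRep.IsArtinianTestAlgebra 𝒪 (B ⧸ J) := by
  haveI := hB.isArtinian
  haveI := hB.isLocalHom
  haveI : IsLocalHom (Ideal.Quotient.mk J) :=
    IsLocalHom.of_surjective _ Ideal.Quotient.mk_surjective
  refine ⟨?_, ?_, ?_⟩
  · have : algebraMap 𝒪 (B ⧸ J) = (Ideal.Quotient.mk J).comp (algebraMap 𝒪 B) := rfl
    rw [this]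
    exact RingHom.isLocalHom_comp _ _
  · intro y
    obtain ⟨y, rfl⟩ := residue_surjective y
    obtain ⟨y, rfl⟩ := Ideal.Quotient.mk_surjective y
    obtain ⟨a, ha⟩ := hB.residue_surjective (residue B y)
    refine ⟨a, ?_⟩
    rw [Function.comp_apply] at ha ⊢
    rw [← sub_eq_zero, ← map_sub, residue_eq_zero_iff] at ha ⊢
    have : algebraMap 𝒪 (B ⧸ J) a - Ideal.Quotient.mk J y =
        Ideal.Quotient.mk J (algebraMap 𝒪 B a - y) := by
      rw [map_sub]; rfl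
    rw [this]
    exact map_nonunit (Ideal.Quotient.mk J) _ ha
  · exact (Ideal.Quotient.mk_surjective (I := J)).isArtinianRing

/-- A sub-`𝒪`-algebra of a finite test algebra is local, a test algebra, and the inclusion is
a local homomorphism. -/
theorem isArtinianTestAlgebra_of_injective
    {A B : Type} [CommRing A] [CommRing B] [IsLocalRing B] [Algebra 𝒪 A] [Algebra 𝒪 B] [Finite B]
    (hB : GaloisRep.IsArtinianTestAlgebra 𝒪 B) (φ : A →ₐ[𝒪] B) (hφ : Function.Injective φ) :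
    ∃ _ : IsLocalRing A, GaloisRep.IsArtinianTestAlgebra 𝒪 A ∧ IsLocalHom (φ : A →+* B) := by
  haveI : Finite A := Finite.of_injective φ hφ
  haveI : Nontrivial A := ⟨⟨0, 1, fun h => by
    have := congrArg φ h
    rw [map_zero, map_one] at this
    exact zero_ne_one this⟩⟩
  have hunit : ∀ a : A, IsUnit (φ a) → IsUnit a := by
    intro a ha
    obtain ⟨n, hn, hn1⟩ := (isOfFinOrder_of_finite ha.unit).exists_pow_eq_one
    have h1 : φ (a ^ n) = 1 := by
      rw [map_pow]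
      have := congrArg Units.val hn1
      rwa [Units.val_pow_eq_pow_val, IsUnit.unit_spec, Units.val_one] at this
    have h2 : a ^ n = 1 := hφ (by rw [h1, map_one])
    exact IsUnit.of_pow_eq_one h2 hn.ne'
  haveI hloc : IsLocalRing A := IsLocalRing.of_nonunits_add (by
    intro a b ha hb
    have ha' : φ a ∈ nonunits B := fun h => ha (hunit a h)
    have hb' : φ b ∈ nonunits B := fun h => hb (hunit b h)
    intro hab
    have : φ (a + b) ∈ nonunits B := by
      rw [map_add]; exact IsLocalRing.nonunits_add ha' hb'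
    exact this (hab.map φ))
  haveI hφloc : IsLocalHom (φ : A →+* B) := ⟨fun a ha => hunit a ha⟩
  haveI := hB.isLocalHom
  refine ⟨hloc, ⟨?_, ?_, inferInstance⟩, hφloc⟩
  · refine ⟨fun x hx => ?_⟩
    have : IsUnit (algebraMap 𝒪 B x) := by
      rw [← φ.commutes]; exact hx.map φ
    exact IsLocalHom.map_nonunit x this
  · intro y
    obtain ⟨a, rfl⟩ := residue_surjective y
    obtain ⟨c, hc⟩ := hB.residue_surjective (residue B (φ a))
    refine ⟨c, ?_⟩
    rw [Function.comp_apply] at hc ⊢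
    rw [← sub_eq_zero, ← map_sub, residue_eq_zero_iff] at hc ⊢
    rw [mem_maximalIdeal, mem_nonunits_iff] at hc ⊢
    intro h
    apply hc
    have := h.map φ
    rwa [map_sub, φ.commutes] at this

end TestAlgebra

end Fermat.Agent.S53_helper84
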