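import Mathlib
import Fermat.Agent.S53_helper84.TangentBridge
import Fermat.Agent.S53_helper84.TestAlg
import Fermat.Agent.S53_helper84.CotangentCount
import Fermat.Agent.S53_helper35.MatDict

/-!
# `TangentFinite` gives the uniform bound `tangent_bound` of an admissible family

Part A: pure algebra on quotients `Λ ⧸ I` with `M ^ n ≤ I ≤ M`, `M` maximal with `𝒪 → Λ ⧸ M`
onto.  Part B: the bound itself, for `Λ = MvPolynomial (GQ × Fin 2 × Fin 2) 𝒪`, with the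
normal form entering only through the rigidity hypothesis `hrig`.
-/

set_option autoImplicit false
set_option linter.style.haveILetI false

open IsLocalRing

namespace Fermat.Agent.S53_helper84

open Fermat.Agent.S53_helper35

section QuotientAlgebra

variable {𝒪 : Type} [CommRing 𝒪] [IsLocalRing 𝒪]
variable {Λ : Type} [CommRing Λ] [Algebra 𝒪 Λ] {M I : Ideal Λ}

/-- Every maximal ideal of `Λ ⧸ I` pulls back to `M` when `M ^ n ≤ I`. -/
theorem comap_mk_eq_of_isMaximal (hM : M.IsMaximal) (hn : ∃ n, M ^ n ≤ I)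
    (P : Ideal (Λ ⧸ I)) [hP : P.IsMaximal] : P.comap (Ideal.Quotient.mk I) = M := by
  obtain ⟨n, hn⟩ := hn
  haveI hQ : (P.comap (Ideal.Quotient.mk I)).IsMaximal :=
    Ideal.comap_isMaximal_of_surjective _ Ideal.Quotient.mk_surjective
  have hI : I ≤ P.comap (Ideal.Quotient.mk I) := by
    intro x hx
    rw [Ideal.mem_comap, Ideal.Quotient.eq_zero_iff_mem.mpr hx]
    exact P.zero_mem
  have hle : M ≤ P.comap (Ideal.Quotient.mk I) := Ideal.IsPrime.le_of_pow_le (hn.trans hI)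
  exact (hM.eq_of_le hQ.ne_top hle).symm

theorem isLocalRing_quotient_of_pow_le (hM : M.IsMaximal) (hIM : I ≤ M) (hn : ∃ n, M ^ n ≤ I) :
    IsLocalRing (Λ ⧸ I) := by
  have hne : I ≠ ⊤ := fun h => hM.ne_top (top_le_iff.mp (h ▸ hIM))
  haveI : Nontrivial (Λ ⧸ I) := Ideal.Quotient.nontrivial_iff.mpr hne
  obtain ⟨P₀, hP₀⟩ := Ideal.exists_maximal (Λ ⧸ I)
  refine IsLocalRing.of_unique_max_ideal ⟨P₀, hP₀, fun P hP => ?_⟩
  have h1 := comap_mk_eq_of_isMaximal hM hn P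
  have h2 := comap_mk_eq_of_isMaximal hM hn P₀
  rw [← Ideal.map_comap_of_surjective _ Ideal.Quotient.mk_surjective P,
    ← Ideal.map_comap_of_surjective _ Ideal.Quotient.mk_surjective P₀, h1, h2]

theorem comap_mk_maximalIdeal (hM : M.IsMaximal) (hn : ∃ n, M ^ n ≤ I) [IsLocalRing (Λ ⧸ I)] :
    (maximalIdeal (Λ ⧸ I)).comap (Ideal.Quotient.mk I) = M :=
  comap_mk_eq_of_isMaximal hM hn _

theorem mk_mem_maximalIdeal_iff (hM : M.IsMaximal) (hn : ∃ n, M ^ n ≤ I) [IsLocalRing (Λ ⧸ I)]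
    (x : Λ) : Ideal.Quotient.mk I x ∈ maximalIdeal (Λ ⧸ I) ↔ x ∈ M := by
  rw [← Ideal.mem_comap, comap_mk_maximalIdeal hM hn]

theorem maximalIdeal_quotient_eq_map (hM : M.IsMaximal) (hn : ∃ n, M ^ n ≤ I)
    [IsLocalRing (Λ ⧸ I)] : maximalIdeal (Λ ⧸ I) = M.map (Ideal.Quotient.mk I) := by
  rw [← comap_mk_maximalIdeal (I := I) hM hn,
    Ideal.map_comap_of_surjective _ Ideal.Quotient.mk_surjective]

theorem maximalIdeal_quotient_pow_eq_bot (hM : M.IsMaximal) {n : ℕ} (hn : M ^ n ≤ I)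
    [IsLocalRing (Λ ⧸ I)] : maximalIdeal (Λ ⧸ I) ^ n = ⊥ := by
  rw [maximalIdeal_quotient_eq_map hM ⟨n, hn⟩, ← Ideal.map_pow, eq_bot_iff]
  refine (Ideal.map_mono hn).trans ?_
  rw [Ideal.map_quotient_self]

/-- Ring homs out of `Λ ⧸ I` (with nilpotent maximal ideal) into local rings are local. -/
theorem isLocalHom_of_quotient (hM : M.IsMaximal) (hn : ∃ n, M ^ n ≤ I) [IsLocalRing (Λ ⧸ I)]
    {B : Type*} [CommRing B] [Nontrivial B] (φ : Λ ⧸ I →+* B) : IsLocalHom φ := by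
  obtain ⟨n, hn⟩ := hn
  refine ⟨fun x hx => ?_⟩
  by_contra hx'
  have hxm : x ∈ maximalIdeal (Λ ⧸ I) := (mem_maximalIdeal x).mpr hx'
  have hpow : x ^ n = 0 := by
    have := Ideal.pow_mem_pow hxm n
    rwa [maximalIdeal_quotient_pow_eq_bot hM hn, Ideal.mem_bot] at this
  have : IsUnit (φ x ^ n) := hx.pow n
  rw [← map_pow, hpow, map_zero] at this
  exact not_isUnit_zero this

theorem comap_algebraMap_eq_maximalIdeal (hM : M.IsMaximal)
    (hres : Function.Surjective (Ideal.Quotient.mk M ∘ algebraMap 𝒪 Λ)) :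
    M.comap (algebraMap 𝒪 Λ) = maximalIdeal 𝒪 := by
  haveI := hM
  haveI : (M.comap (algebraMap 𝒪 Λ)).IsMaximal := by
    letI : Field (Λ ⧸ M) := Ideal.Quotient.field M
    have h := RingHom.ker_isMaximal_of_surjective
      ((Ideal.Quotient.mk M).comp (algebraMap 𝒪 Λ)) hres
    rwa [← RingHom.comap_ker, Ideal.mk_ker] at h
  exact IsLocalRing.eq_maximalIdeal this

theorem isLocalHom_algebraMap_quotient (hM : M.IsMaximal)
    (hres : Function.Surjective (Ideal.Quotient.mk M ∘ algebraMap 𝒪 Λ))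
    (hn : ∃ n, M ^ n ≤ I) [IsLocalRing (Λ ⧸ I)] : IsLocalHom (algebraMap 𝒪 (Λ ⧸ I)) := by
  refine ⟨fun a ha => ?_⟩
  by_contra ha'
  have ham : a ∈ maximalIdeal 𝒪 := (mem_maximalIdeal a).mpr ha'
  rw [← comap_algebraMap_eq_maximalIdeal hM hres, Ideal.mem_comap] at ham
  have : algebraMap 𝒪 (Λ ⧸ I) a ∈ maximalIdeal (Λ ⧸ I) :=
    (mk_mem_maximalIdeal_iff hM hn (algebraMap 𝒪 Λ a)).mpr ham
  exact (mem_maximalIdeal _).mp this ha

omit [IsLocalRing 𝒪] in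
theorem residue_surjective_quotient (hM : M.IsMaximal)
    (hres : Function.Surjective (Ideal.Quotient.mk M ∘ algebraMap 𝒪 Λ))
    (hn : ∃ n, M ^ n ≤ I) [IsLocalRing (Λ ⧸ I)] :
    Function.Surjective (residue (Λ ⧸ I) ∘ algebraMap 𝒪 (Λ ⧸ I)) := by
  intro y
  obtain ⟨y, rfl⟩ := residue_surjective y
  obtain ⟨x, rfl⟩ := Ideal.Quotient.mk_surjective y
  obtain ⟨a, ha⟩ := hres (Ideal.Quotient.mk M x)
  refine ⟨a, ?_⟩
  rw [Function.comp_apply, Ideal.Quotient.eq] at ha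
  rw [Function.comp_apply, ← sub_eq_zero, ← map_sub, residue_eq_zero_iff]
  exact (mk_mem_maximalIdeal_iff hM hn (algebraMap 𝒪 Λ a - x)).mpr ha

theorem isArtinianTestAlgebra_quotient_of_pow_le (hM : M.IsMaximal)
    (hres : Function.Surjective (Ideal.Quotient.mk M ∘ algebraMap 𝒪 Λ))
    (hn : ∃ n, M ^ n ≤ I) [IsLocalRing (Λ ⧸ I)] [Finite (Λ ⧸ I)] :
    GaloisRep.IsArtinianTestAlgebra 𝒪 (Λ ⧸ I) :=
  isArtinianTestAlgebra_of_finite (isLocalHom_algebraMap_quotient hM hres hn)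
    (residue_surjective_quotient hM hres hn)

/-- First-order quotients are bounded by their number of `k[ε]`-points. -/
theorem card_quotient_le_of_sq_le [Finite (ResidueField 𝒪)] (hM : M.IsMaximal)
    (hres : Function.Surjective (Ideal.Quotient.mk M ∘ algebraMap 𝒪 Λ))
    (h2 : M ^ 2 ≤ I) (hm : (maximalIdeal 𝒪).map (algebraMap 𝒪 Λ) ≤ I)
    [IsLocalRing (Λ ⧸ I)] [Finite (Λ ⧸ I)] :
    Nat.card (Λ ⧸ I) ≤ Nat.card (ResidueField 𝒪) ^
      (2 * Nat.card ((Λ ⧸ I) →ₐ[𝒪] DualNumber (ResidueField 𝒪))) := by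
  refine card_le_of_card_algHom_dualNumber (isLocalHom_algebraMap_quotient hM hres ⟨2, h2⟩)
    (residue_surjective_quotient hM hres ⟨2, h2⟩) (maximalIdeal_quotient_pow_eq_bot hM h2) ?_
  intro a ha
  exact Ideal.Quotient.eq_zero_iff_mem.mpr (hm (Ideal.mem_map_of_mem _ ha))

/-- Kernels of `𝒪`-algebra maps to the residue field of `𝒪`. -/
theorem algHom_residueField_surjective (ev : Λ →ₐ[𝒪] ResidueField 𝒪) : Function.Surjective ev := by
  intro y
  obtain ⟨a, rfl⟩ := residue_surjective y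
  exact ⟨algebraMap 𝒪 Λ a, by rw [AlgHom.commutes]; rfl⟩

theorem ker_algHom_residueField_isMaximal (ev : Λ →ₐ[𝒪] ResidueField 𝒪) :
    (RingHom.ker ev).IsMaximal :=
  RingHom.ker_isMaximal_of_surjective (ev : Λ →+* ResidueField 𝒪)
    (algHom_residueField_surjective ev)

theorem exists_sub_algebraMap_mem_ker (ev : Λ →ₐ[𝒪] ResidueField 𝒪) (x : Λ) :
    ∃ a : 𝒪, residue 𝒪 a = ev x ∧ x - algebraMap 𝒪 Λ a ∈ RingHom.ker ev := by
  obtain ⟨a, ha⟩ := residue_surjective (ev x)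
  refine ⟨a, ha, ?_⟩
  rw [RingHom.mem_ker, map_sub, AlgHom.commutes, sub_eq_zero, ← ha]
  rfl

theorem ker_algHom_residueField_residue_surjective (ev : Λ →ₐ[𝒪] ResidueField 𝒪) :
    Function.Surjective (Ideal.Quotient.mk (RingHom.ker ev) ∘ algebraMap 𝒪 Λ) := by
  intro y
  obtain ⟨x, rfl⟩ := Ideal.Quotient.mk_surjective y
  obtain ⟨a, -, ha⟩ := exists_sub_algebraMap_mem_ker ev x
  refine ⟨a, ?_⟩
  rw [Function.comp_apply, Ideal.Quotient.eq, ← neg_sub]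
  exact neg_mem ha

end QuotientAlgebra

section ResidualBridge

variable {k : Type} [Field k]

/-- The standard basis of the space of `ofMatRes r hr`. -/
noncomputable def ofMatResBasis (r : GQ →* Matrix (Fin 2) (Fin 2) k) (hr : ResCont r) :
    Module.Basis (Fin 2) k (ofMatRes r hr).V :=
  Pi.basisFun k (Fin 2)

theorem toMatRes_ofMatRes (r : GQ →* Matrix (Fin 2) (Fin 2) k) (hr : ResCont r) :
    toMatRes (ofMatRes r hr) (ofMatResBasis r hr) = r := by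
  refine MonoidHom.ext fun σ => ?_
  rw [toMatRes_apply]
  show LinearMap.toMatrix (Pi.basisFun k (Fin 2)) (Pi.basisFun k (Fin 2))
    (Matrix.toLin' (r σ)) = r σ
  rw [LinearMap.toMatrix_eq_toMatrix', LinearMap.toMatrix'_toLin']

theorem baseChangeAlong_ofMatRes_isEquiv {k' : Type} [Field k'] (ψ : k →+* k')
    (r : GQ →* Matrix (Fin 2) (Fin 2) k) (hr : ResCont r) :
    ((ofMatRes r hr).baseChangeAlong ψ).IsEquiv (ofMatRes (mapMat ψ r) (resCont_mapMat ψ hr)) := by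
  obtain ⟨e⟩ := baseChangeAlong_isEquiv_ofMatRes ψ (ofMatRes r hr) (ofMatResBasis r hr)
  obtain ⟨e'⟩ := isEquiv_ofMatRes_of_eq
    (resCont_mapMat ψ (resCont_toMatRes (ofMatRes r hr) (ofMatResBasis r hr)))
    (resCont_mapMat ψ hr) (congrArg (mapMat ψ) (toMatRes_ofMatRes r hr))
  exact ⟨e.trans e'⟩

/-- If `ρbar` is given by the matrices `rbar`, then `ρbar ⊗ ψ` is given by `ψ ∘ rbar`. -/
theorem ofMatRes_mapMat_isEquiv_baseChangeAlong {k' : Type} [Field k'] (ψ : k →+* k')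
    (ρbar : ResidualGaloisRep k) (rbar : GQ →* Matrix (Fin 2) (Fin 2) k) (hrbar : ResCont rbar)
    (hρbar : ρbar.IsEquiv (ofMatRes rbar hrbar)) :
    (ofMatRes (mapMat ψ rbar) (resCont_mapMat ψ hrbar)).IsEquiv (ρbar.baseChangeAlong ψ) := by
  obtain ⟨e⟩ := hρbar
  obtain ⟨e'⟩ := baseChangeAlong_ofMatRes_isEquiv ψ rbar hrbar
  exact ⟨((e.baseChangeAlong ψ).trans e').symm⟩

end ResidualBridge

section Bound

variable {𝒪 : Type} [CommRing 𝒪] [IsLocalRing 𝒪]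
  (ρbar : ResidualGaloisRep (ResidueField 𝒪))
  (𝒟 : ∀ ⦃A : Type⦄ [CommRing A] [IsLocalRing A] [Algebra 𝒪 A], GaloisRepAdic A → Prop)

/-- Quantitative form of `finite_of_tangentFinite`. -/
theorem card_le_of_tangentFinite (h : GaloisRep.TangentFinite 𝒪 ρbar 𝒟) {X : Type*}
    (f : X → TangentLift 𝒪 ρbar 𝒟)
    (hf : ∀ x y, (f x).1.IsEquiv (f y).1 → x = y) :
    Nat.card X ≤ Nat.card (Quotient (tangentSetoid 𝒪 ρbar 𝒟)) := by
  haveI := (tangentFinite_iff 𝒪 ρbar 𝒟).mp h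
  refine Nat.card_le_card_of_injective
    (fun x => (Quotient.mk (tangentSetoid 𝒪 ρbar 𝒟) (f x))) ?_
  intro x y hxy
  exact hf x y (Quotient.exact hxy)

variable {Λ : Type} [CommRing Λ] [Algebra 𝒪 Λ] {I : Ideal Λ}

/-- Compatibility of residues: an `𝒪`-algebra map `Λ ⧸ I → k[ε]` reduces to `ev`. -/
theorem residue_algHom_dualNumber_mk (ev : Λ →ₐ[𝒪] ResidueField 𝒪)
    (hn : ∃ n, RingHom.ker ev ^ n ≤ I) [IsLocalRing (Λ ⧸ I)]
    (φ : (Λ ⧸ I) →ₐ[𝒪] DualNumber (ResidueField 𝒪)) (x : Λ) :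
    residue (DualNumber (ResidueField 𝒪)) (φ (Ideal.Quotient.mk I x)) =
      ResidueField.map (algebraMap 𝒪 (DualNumber (ResidueField 𝒪))) (ev x) := by
  have hM := ker_algHom_residueField_isMaximal ev
  obtain ⟨a, ha, hxa⟩ := exists_sub_algebraMap_mem_ker ev x
  haveI hφ : IsLocalHom (φ : (Λ ⧸ I) →+* DualNumber (ResidueField 𝒪)) :=
    isLocalHom_of_quotient hM hn _
  have h1 : Ideal.Quotient.mk I (x - algebraMap 𝒪 Λ a) ∈ maximalIdeal (Λ ⧸ I) :=
    (mk_mem_maximalIdeal_iff hM hn _).mpr hxa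
  have h2 : (φ : (Λ ⧸ I) →+* DualNumber (ResidueField 𝒪))
      (Ideal.Quotient.mk I (x - algebraMap 𝒪 Λ a)) ∈
      maximalIdeal (DualNumber (ResidueField 𝒪)) := by
    rw [mem_maximalIdeal, mem_nonunits_iff] at h1 ⊢
    exact fun hu => h1 (hφ.map_nonunit _ hu)
  rw [← residue_eq_zero_iff, map_sub, map_sub, map_sub, sub_eq_zero] at h2
  rw [← ha, ResidueField.map_residue]
  refine h2.trans ?_
  congr 1
  exact φ.commutes a

/-- For a fixed quotient `Λ ⧸ I` carrying a lift `r` of type `𝒟` which is rigid on `k[ε]`-points,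
the number of `k[ε]`-points is bounded by the number of tangent classes. -/
theorem card_algHom_dualNumber_le
    (h𝒟 : GaloisRep.IsDeformationCondition 𝒪 𝒟) (hfin : GaloisRep.TangentFinite 𝒪 ρbar 𝒟)
    (rbar : GQ →* Matrix (Fin 2) (Fin 2) (ResidueField 𝒪)) (hrbar : ResCont rbar)
    (hρbar : ρbar.IsEquiv (ofMatRes rbar hrbar))
    (ev : Λ →ₐ[𝒪] ResidueField 𝒪) (hn : ∃ n, RingHom.ker ev ^ n ≤ I)
    [IsLocalRing (Λ ⧸ I)] [Finite (Λ ⧸ I)]
    (r : GQ →* Matrix (Fin 2) (Fin 2) (Λ ⧸ I)) (hr : MatCont r)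
    (hbar : ∀ g i j, ∃ x : Λ, r g i j = Ideal.Quotient.mk I x ∧ ev x = rbar g i j)
    (h𝒟r : 𝒟 (ofMat r hr))
    (hrig : ∀ φ φ' : (Λ ⧸ I) →ₐ[𝒪] DualNumber (ResidueField 𝒪),
      (∃ P : GL (Fin 2) (DualNumber (ResidueField 𝒪)), ∀ σ,
        (P : Matrix (Fin 2) (Fin 2) (DualNumber (ResidueField 𝒪))) *
            mapMat (φ : (Λ ⧸ I) →+* DualNumber (ResidueField 𝒪)) r σ =
          mapMat (φ' : (Λ ⧸ I) →+* DualNumber (ResidueField 𝒪)) r σ *
            (P : Matrix (Fin 2) (Fin 2) (DualNumber (ResidueField 𝒪)))) → φ = φ') :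
    Nat.card ((Λ ⧸ I) →ₐ[𝒪] DualNumber (ResidueField 𝒪)) ≤
      Nat.card (Quotient (tangentSetoid 𝒪 ρbar 𝒟)) := by
  have hM := ker_algHom_residueField_isMaximal ev
  have hres := ker_algHom_residueField_residue_surjective ev
  have hA : GaloisRep.IsArtinianTestAlgebra 𝒪 (Λ ⧸ I) :=
    isArtinianTestAlgebra_quotient_of_pow_le hM hres hn
  have hloc : ∀ φ : (Λ ⧸ I) →ₐ[𝒪] DualNumber (ResidueField 𝒪),
      IsLocalHom (φ : (Λ ⧸ I) →+* DualNumber (ResidueField 𝒪)) :=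
    fun φ => isLocalHom_of_quotient hM hn _
  have hmem : ∀ φ : (Λ ⧸ I) →ₐ[𝒪] DualNumber (ResidueField 𝒪),
      𝒟 (ofMat (mapMat (φ : (Λ ⧸ I) →+* DualNumber (ResidueField 𝒪)) r)
        (matCont_mapMat _ (hloc φ) hr)) ∧
      (ofMat (mapMat (φ : (Λ ⧸ I) →+* DualNumber (ResidueField 𝒪)) r)
        (matCont_mapMat _ (hloc φ) hr)).residual.IsEquiv
        (ρbar.baseChangeAlong
          (ResidueField.map (algebraMap 𝒪 (DualNumber (ResidueField 𝒪))))) := by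
    intro φ
    refine ⟨h𝒟.of_isEquiv (isArtinianTestAlgebra_dualNumber 𝒪)
      (baseChangeAlong_ofMat_isEquiv _ (hloc φ) r hr)
      (h𝒟.baseChangeAlong hA (isArtinianTestAlgebra_dualNumber 𝒪) φ (hloc φ) h𝒟r), ?_⟩
    have hmat : mapMat (residue (DualNumber (ResidueField 𝒪)))
        (mapMat (φ : (Λ ⧸ I) →+* DualNumber (ResidueField 𝒪)) r) =
        mapMat (ResidueField.map (algebraMap 𝒪 (DualNumber (ResidueField 𝒪)))) rbar := by
      refine MonoidHom.ext fun g => ?_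
      ext i j
      rw [mapMat_apply, mapMat_apply, mapMat_apply, Matrix.map_apply, Matrix.map_apply,
        Matrix.map_apply]
      obtain ⟨x, hx, hxe⟩ := hbar g i j
      rw [hx, ← hxe]
      exact residue_algHom_dualNumber_mk ev hn φ x
    obtain ⟨e⟩ := residual_ofMat_isEquiv_of_eq _ (matCont_mapMat _ (hloc φ) hr) rbar hrbar
      (ResidueField.map (algebraMap 𝒪 (DualNumber (ResidueField 𝒪)))) hmat
    obtain ⟨e'⟩ := ofMatRes_mapMat_isEquiv_baseChangeAlong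
      (ResidueField.map (algebraMap 𝒪 (DualNumber (ResidueField 𝒪)))) ρbar rbar hrbar hρbar
    exact ⟨e.trans e'⟩
  refine card_le_of_tangentFinite ρbar 𝒟 hfin
    (fun φ => ⟨ofMat (mapMat (φ : (Λ ⧸ I) →+* DualNumber (ResidueField 𝒪)) r)
      (matCont_mapMat _ (hloc φ) hr), hmem φ⟩) ?_
  intro φ φ' h
  exact hrig φ φ' ((ofMat_isEquiv_iff (matCont_mapMat _ (hloc φ) hr)
    (matCont_mapMat _ (hloc φ') hr)).mp h)

omit [IsLocalRing 𝒪] in
/-- Two `𝒪`-algebra maps out of a quotient of the polynomial ring which agree on the images of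
the variables are equal. -/
theorem algHom_quotient_mvPolynomial_ext {S : Type*} {B : Type*} [CommRing B] [Algebra 𝒪 B]
    {J : Ideal (MvPolynomial S 𝒪)} (φ φ' : (MvPolynomial S 𝒪 ⧸ J) →ₐ[𝒪] B)
    (h : ∀ s, φ (Ideal.Quotient.mk J (MvPolynomial.X s)) =
      φ' (Ideal.Quotient.mk J (MvPolynomial.X s))) : φ = φ' := by
  have hcomp : φ.comp (Ideal.Quotient.mkₐ 𝒪 J) = φ'.comp (Ideal.Quotient.mkₐ 𝒪 J) :=
    MvPolynomial.algHom_ext fun s => h s
  refine AlgHom.ext fun x => ?_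
  obtain ⟨x, rfl⟩ := Ideal.Quotient.mk_surjective x
  exact congrArg (fun f => f x) hcomp

/-- **The uniform tangent bound** (field `tangent_bound` of an admissible family) for a family of
ideals of `Λ = 𝒪[X_{g,i,j}]` whose tautological matrices form rigid lifts of type `𝒟`. The normal
form enters only through `hrig`. -/
theorem exists_tangent_bound [Finite (ResidueField 𝒪)]
    (h𝒟 : GaloisRep.IsDeformationCondition 𝒪 𝒟) (hfin : GaloisRep.TangentFinite 𝒪 ρbar 𝒟)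
    (rbar : GQ →* Matrix (Fin 2) (Fin 2) (ResidueField 𝒪)) (hrbar : ResCont rbar)
    (hρbar : ρbar.IsEquiv (ofMatRes rbar hrbar))
    (ev : MvPolynomial (GQ × Fin 2 × Fin 2) 𝒪 →ₐ[𝒪] ResidueField 𝒪)
    (hev : ∀ g i j, ev (MvPolynomial.X (g, i, j)) = rbar g i j)
    (𝓘 : Set (Ideal (MvPolynomial (GQ × Fin 2 × Fin 2) 𝒪)))
    (h𝓘 : ∀ I ∈ 𝓘, I ≤ RingHom.ker ev ∧ Finite (MvPolynomial (GQ × Fin 2 × Fin 2) 𝒪 ⧸ I) ∧
      ∀ [IsLocalRing (MvPolynomial (GQ × Fin 2 × Fin 2) 𝒪 ⧸ I)],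
        ∃ (r : GQ →* Matrix (Fin 2) (Fin 2) (MvPolynomial (GQ × Fin 2 × Fin 2) 𝒪 ⧸ I))
          (hr : MatCont r),
          (∀ g i j, r g i j = Ideal.Quotient.mk I (MvPolynomial.X (g, i, j))) ∧ 𝒟 (ofMat r hr))
    (hrig : ∀ I ∈ 𝓘,
      ∀ r : GQ →* Matrix (Fin 2) (Fin 2) (MvPolynomial (GQ × Fin 2 × Fin 2) 𝒪 ⧸ I),
        (∀ g i j, r g i j = Ideal.Quotient.mk I (MvPolynomial.X (g, i, j))) →
        ∀ φ φ' : (MvPolynomial (GQ × Fin 2 × Fin 2) 𝒪 ⧸ I) →ₐ[𝒪] DualNumber (ResidueField 𝒪),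
          (∃ P : GL (Fin 2) (DualNumber (ResidueField 𝒪)), ∀ σ,
            (P : Matrix (Fin 2) (Fin 2) (DualNumber (ResidueField 𝒪))) *
                mapMat (φ : _ →+* DualNumber (ResidueField 𝒪)) r σ =
              mapMat (φ' : _ →+* DualNumber (ResidueField 𝒪)) r σ *
                (P : Matrix (Fin 2) (Fin 2) (DualNumber (ResidueField 𝒪)))) →
          mapMat (φ : _ →+* DualNumber (ResidueField 𝒪)) r =
            mapMat (φ' : _ →+* DualNumber (ResidueField 𝒪)) r) :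
    ∃ B : ℕ, ∀ I ∈ 𝓘, RingHom.ker ev ^ 2 ≤ I →
      (maximalIdeal 𝒪).map (algebraMap 𝒪 (MvPolynomial (GQ × Fin 2 × Fin 2) 𝒪)) ≤ I →
      Nat.card (MvPolynomial (GQ × Fin 2 × Fin 2) 𝒪 ⧸ I) ≤ B := by
  refine ⟨Nat.card (ResidueField 𝒪) ^ (2 * Nat.card (Quotient (tangentSetoid 𝒪 ρbar 𝒟))),
    fun I hI h2 hm => ?_⟩
  have hM := ker_algHom_residueField_isMaximal ev
  have hres := ker_algHom_residueField_residue_surjective ev
  obtain ⟨hIM, hIfin, hIr⟩ := h𝓘 I hI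
  haveI := hIfin
  haveI : IsLocalRing (MvPolynomial (GQ × Fin 2 × Fin 2) 𝒪 ⧸ I) :=
    isLocalRing_quotient_of_pow_le hM hIM ⟨2, h2⟩
  obtain ⟨r, hr, htaut, h𝒟r⟩ := hIr
  have hcount := card_algHom_dualNumber_le ρbar 𝒟 h𝒟 hfin rbar hrbar hρbar ev ⟨2, h2⟩ r hr
    (fun g i j => ⟨MvPolynomial.X (g, i, j), htaut g i j, hev g i j⟩) h𝒟r
    (fun φ φ' hP => by
      have hmap := hrig I hI r htaut φ φ' hP
      refine algHom_quotient_mvPolynomial_ext φ φ' ?_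
      rintro ⟨g, i, j⟩
      have := congrArg (fun f : GQ →* Matrix (Fin 2) (Fin 2) (DualNumber (ResidueField 𝒪)) =>
        f g i j) hmap
      simp only [mapMat_apply, Matrix.map_apply, htaut] at this
      exact this)
  refine (card_quotient_le_of_sq_le hM hres h2 hm).trans ?_
  exact Nat.pow_le_pow_right Nat.card_pos (Nat.mul_le_mul_left 2 hcount)

end Bound

end Fermat.Agent.S53_helper84
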